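import Mathlib
import Fermat.Agent.H27.ESD.Interfaces
import Fermat.Agent.H18.RedValThm

/-!
# P-ES / ES-D-CORE (row 304): interfaces of the leading-term argument

Setting (prelude generality): `L` a field of characteristic `0`, `A` a valuation subring of `L`,
`π : A →+* k`, `F_L = rvFL L N`, `F_k = rvFk k N`, `O = rvRing A π N` the Gauss ring of helper18
with its reduction `rvRed A π N : O →+* F_k`, `r` a reduction map of places.

* `HasCoord A π N r Q` : there is a coordinate on the residue disc `r⁻¹(Q)`: a place `P` over `Q`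
  and `t ∈ O` without poles on the disc, vanishing at `P`, whose reduction is a local parameter
  at `Q`.
* `CoordStatement` (CORE-a): coordinates exist at all but finitely many places `Q` of `F_k`.
* `LeadingTermStatement` (CORE-cd, abstract steps 4-6): injectivity of the reduction on
  prime-to-`p` torsion divisor classes, given coordinates at a nonspecial set `T`.

The glue `S18CoreStatement ⇐ CoordStatement + LeadingTermStatement` is in
`Fermat.Agent.H87.ESD.CoreGlue`.
-/

set_option autoImplicit false
set_option synthInstance.maxHeartbeats 400000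

open AlgebraicCurve ModularCurve Fermat.Agent.H18

namespace Fermat.Agent.H87.ESD

noncomputable section

/-- A coordinate on the residue disc `r⁻¹(Q)`. -/
def HasCoord {L : Type*} [Field L] [Algebra ℚ L] (A : ValuationSubring L)
    {k : Type*} [Field k] (π : A →+* k) (N : ℕ)
    (r : Place L ↥(rvFL L N) → Place k ↥(rvFk k N)) (Q : Place k ↥(rvFk k N)) : Prop :=
  ∃ P : Place L ↥(rvFL L N), r P = Q ∧ ∃ t : rvRing A π N,
    1 ≤ P.ord (t : ↥(rvFL L N)) ∧ Q.ord (rvRed A π N t) = 1 ∧
    ∀ P' : Place L ↥(rvFL L N), r P' = Q → 0 ≤ P'.ord (t : ↥(rvFL L N))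

/-- **CORE-a (coordinates).**  For `L = ℚ̄`, `A` over `ℓ ∤ N`, under the Gauss-ring hypotheses and
the two Riemann packages: all but finitely many places of `F_k` carry a coordinate.
(Either by LIFTING, with empty exceptional set, or generically with `t = j - j(P)`.) -/
def CoordStatement : Prop :=
  ∀ (N : ℕ) [NeZero N] (ℓ : ℕ) [Fact ℓ.Prime], ¬ ℓ ∣ N →
    ∀ (A : ValuationSubring (AlgebraicClosure ℚ)), A.LiesOverPrime ℓ →
      ∀ (r : Place (AlgebraicClosure ℚ) ↥(rvFL (AlgebraicClosure ℚ) N) →
          Place (IsLocalRing.ResidueField A) ↥(rvFk (IsLocalRing.ResidueField A) N)),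
        RvHyp A (IsLocalRing.residue A) N r →
        ∀ (gL gk : ℕ),
          Fermat.Agent.H27.ESD.RiemannPackage (AlgebraicClosure ℚ)
            ↥(rvFL (AlgebraicClosure ℚ) N) gL →
          Fermat.Agent.H27.ESD.RiemannPackage (IsLocalRing.ResidueField A)
            ↥(rvFk (IsLocalRing.ResidueField A) N) gk →
          gL ≤ gk →
          ∃ bad : Set (Place (IsLocalRing.ResidueField A)
              ↥(rvFk (IsLocalRing.ResidueField A) N)),
            bad.Finite ∧ ∀ Q, Q ∉ bad → HasCoord A (IsLocalRing.residue A) N r Q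

/-- **CORE-cd (abstract leading-term argument, steps 4-6).**
`T` is a finite set of places of `F_k` such that
* every divisor of `F_L` of degree `≥ #T` has a nonzero section (Riemann in `F_L`),
* `L_k(Σ_{Q ∈ T} Q)` consists of constants (`T` nonspecial),
* every `Q ∈ T` carries a coordinate,
* some place of `F_L` reduces outside `T`.
Then a divisor `D` of degree `0` on `F_L` with `m D` principal, `(m : k) ≠ 0` and `r_* D`
principal is principal. -/
def LeadingTermStatement : Prop :=
  ∀ (L : Type) [Field L] [Algebra ℚ L] (A : ValuationSubring L) (k : Type) [Field k]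
    (π : A →+* k) (N : ℕ) (r : Place L ↥(rvFL L N) → Place k ↥(rvFk k N)),
    RvHyp A π N r →
    HasPrincipalDivisors L ↥(rvFL L N) →
    (∀ P : Place L ↥(rvFL L N), P.deg = 1) →
    ∀ T : Finset (Place k ↥(rvFk k N)),
      (∀ D : Divisor L ↥(rvFL L N), (T.card : ℤ) ≤ Divisor.degree D →
        riemannRochSpace D ≠ ⊥) →
      (∀ f : ↥(rvFk k N), f ∈ riemannRochSpace (∑ Q ∈ T, Finsupp.single Q (1 : ℤ)) →
        ∃ c : k, f = algebraMap k ↥(rvFk k N) c) →
      (∀ Q ∈ T, HasCoord A π N r Q) →
      (∃ P₀ : Place L ↥(rvFL L N), r P₀ ∉ T) →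
      ∀ m : ℕ, (m : k) ≠ 0 →
        ∀ D : Divisor L ↥(rvFL L N), Divisor.degree D = 0 →
          m • D ∈ Divisor.principal (K := L) (F := ↥(rvFL L N)) →
          Finsupp.mapDomain r D ∈ Divisor.principal (K := k) (F := ↥(rvFk k N)) →
          D ∈ Divisor.principal (K := L) (F := ↥(rvFL L N))

end

end Fermat.Agent.H87.ESD
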