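import Mathlib
import Fermat.Agent.H87.ESD.CoreInterfaces
import Fermat.Agent.H79.CoreB

/-!
# P-ES / ES-D-CORE (row 304): the final glue

`s18Core_of : CoordStatement → LeadingTermStatement → S18CoreStatement`.
-/

set_option autoImplicit false
set_option synthInstance.maxHeartbeats 400000
set_option maxHeartbeats 1000000

open AlgebraicCurve ModularCurve Fermat.Agent.H18 Fermat.Agent.H27.ESD

namespace Fermat.Agent.H87.ESD

noncomputable section

/-- `1 ∈ L(D)` for `D ≥ 0`. -/
theorem one_mem_riemannRochSpace {K F : Type*} [Field K] [Field F] [Algebra K F]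
    (D : Divisor K F) (hD : ∀ v, 0 ≤ D v) : (1 : F) ∈ riemannRochSpace D := by
  rw [mem_riemannRochSpace_iff]
  intro v
  right
  rw [Place.ord_one]
  have := hD v
  omega

/-- if `ℓ(D) = 1` and `D ≥ 0` then `L(D)` consists of constants. -/
theorem exists_const_of_finrank_one {K F : Type*} [Field K] [Field F] [Algebra K F]
    (D : Divisor K F) (hD : ∀ v, 0 ≤ D v)
    (h1 : Module.finrank K (riemannRochSpace D) = 1) (f : F) (hf : f ∈ riemannRochSpace D) :
    ∃ c : K, f = algebraMap K F c := by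
  have hone : (⟨1, one_mem_riemannRochSpace D hD⟩ : riemannRochSpace D) ≠ 0 := by
    intro h
    exact one_ne_zero (congrArg Subtype.val h)
  obtain ⟨c, hc⟩ := (finrank_eq_one_iff_of_nonzero' _ hone).1 h1 ⟨f, hf⟩
  refine ⟨c, ?_⟩
  have := congrArg Subtype.val hc
  simp only [Submodule.coe_smul] at this
  rw [← this, Algebra.smul_def, mul_one]

/-- **(a1)** the Gauss-ring hypotheses of helper18 from the prelude reduction inputs and a
Riemann package for `F_L`. -/
theorem rvHyp_of_riemannPackage {L : Type*} [Field L] [Algebra ℚ L] (A : ValuationSubring L)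
    (N : ℕ) (r : Place L ↥(rvFL L N) →
      Place (IsLocalRing.ResidueField A) ↥(rvFk (IsLocalRing.ResidueField A) N))
    (hr : IsPlaceReductionAlong A (IsLocalRing.residue A) N r)
    (hgen : PrincipalGeneratedByIntegral A (IsLocalRing.residue A) N) (gL : ℕ)
    (R : RiemannPackage L ↥(rvFL L N) gL) :
    RvHyp A (IsLocalRing.residue A) N r where
  hr := hr
  hgen := hgen
  hdiv := fun f hf => by
    obtain ⟨D, hD, _⟩ := R.principal.exists_divisor f hf
    exact ⟨D, hD⟩
  htd := fun f _ hord => by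
    have hmem : f ∈ riemannRochSpace (0 : Divisor L ↥(rvFL L N)) := by
      rw [mem_riemannRochSpace_iff]
      intro v
      right
      rw [hord v]
      simp
    obtain ⟨c, hc⟩ := exists_const_of_finrank_one (0 : Divisor L ↥(rvFL L N))
      (fun v => le_of_eq rfl) R.finrank_zero f hmem
    exact ⟨c, hc.symm⟩
  hker := fun a => by
    rw [IsLocalRing.residue_eq_zero_iff, IsLocalRing.mem_maximalIdeal, mem_nonunits_iff]

/-- the residue characteristic: `(m : k) ≠ 0` for `ℓ ∤ m` when `A` lies over `ℓ`. -/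
theorem natCast_residueField_ne_zero {L : Type*} [Field L] (A : ValuationSubring L)
    {ℓ : ℕ} (hℓ : ℓ.Prime) (hA : A.LiesOverPrime ℓ) {m : ℕ} (hm : ¬ ℓ ∣ m) :
    ((m : ℕ) : IsLocalRing.ResidueField A) ≠ 0 := by
  intro h0
  have hℓ0 : ((ℓ : ℕ) : IsLocalRing.ResidueField A) = 0 := by
    have hmem : ((ℓ : ℕ) : A) ∈ IsLocalRing.maximalIdeal A := by
      rw [IsLocalRing.mem_maximalIdeal, mem_nonunits_iff]
      intro hu
      have h1 : ((ℓ : ℕ) : L) ∈ A.nonunits := hA
      rw [ValuationSubring.mem_nonunits_iff_exists_mem_maximalIdeal] at h1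
      obtain ⟨hx, hx'⟩ := h1
      rw [IsLocalRing.mem_maximalIdeal, mem_nonunits_iff] at hx'
      apply hx'
      have : (⟨((ℓ : ℕ) : L), hx⟩ : A) = ((ℓ : ℕ) : A) := by
        ext
        simp
      rw [this]
      exact hu
    have := (IsLocalRing.residue_eq_zero_iff _).2 hmem
    rwa [map_natCast] at this
  have hcop : Nat.Coprime m ℓ := (Nat.Coprime.symm ((Nat.Prime.coprime_iff_not_dvd hℓ).2 hm))
  have hb := Nat.Coprime.gcd_eq_one hcop
  have hbez := Nat.gcd_eq_gcd_ab m ℓ
  rw [hb] at hbez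
  have h1 : ((1 : ℤ) : IsLocalRing.ResidueField A) = 0 := by
    have : ((1 : ℕ) : ℤ) = (m : ℤ) * Nat.gcdA m ℓ + (ℓ : ℤ) * Nat.gcdB m ℓ := hbez
    have h2 := congrArg (Int.cast : ℤ → IsLocalRing.ResidueField A) this
    push_cast at h2
    rw [h0, hℓ0, zero_mul, zero_mul, add_zero] at h2
    simp at h2
  simp at h1

/-- **ES-D-CORE, final glue.** -/
theorem s18Core_of (hCoord : CoordStatement) (hLT : LeadingTermStatement) :
    S18CoreStatement := by
  intro N _ ℓ hℓ hℓN A hA h gL gk RL Rk hg m hm z hmz hz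
  have hr : IsPlaceReductionModL A N (placeReductionModL h) :=
    isPlaceReductionModL_placeReductionModL h
  have hgen : PrincipalGeneratedByIntegral A (IsLocalRing.residue A) N := h.choose_spec.2
  set r := placeReductionModL h with hrdef
  have H : RvHyp A (IsLocalRing.residue A) N r :=
    rvHyp_of_riemannPackage A N r hr hgen gL RL
  obtain ⟨bad, hbad, hcoord⟩ := hCoord N ℓ hℓN A hA r H gL gk RL Rk hg
  obtain ⟨T, hTcard, hTbad, hT1⟩ := Fermat.Agent.H79.exists_nonspecial Rk bad hbad
  -- Riemann in `F_L`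
  have hRL : ∀ D : Divisor (AlgebraicClosure ℚ) ↥(rvFL (AlgebraicClosure ℚ) N),
      (T.card : ℤ) ≤ Divisor.degree D → riemannRochSpace D ≠ ⊥ := by
    intro D hD hbot
    have h1 := RL.riemann D
    rw [hbot, finrank_bot] at h1
    have h2 : (gL : ℤ) ≤ (gk : ℤ) := by exact_mod_cast hg
    rw [hTcard] at hD
    push_cast at h1
    omega
  -- `T` is nonspecial
  have hNS : ∀ f : ↥(rvFk (IsLocalRing.ResidueField A) N),
      f ∈ riemannRochSpace (∑ Q ∈ T, Finsupp.single Q (1 : ℤ)) →
        ∃ c : IsLocalRing.ResidueField A,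
          f = algebraMap (IsLocalRing.ResidueField A) ↥(rvFk (IsLocalRing.ResidueField A) N) c := by
    intro f hf
    exact exists_const_of_finrank_one _ (fun v => Fermat.Agent.H79.placeSum_nonneg T v) hT1 f hf
  -- a place reducing outside `T`
  have hP0 : ∃ P₀ : Place (AlgebraicClosure ℚ) ↥(rvFL (AlgebraicClosure ℚ) N), r P₀ ∉ T := by
    have hinf := Rk.infinite_places
    have hfin : ((T : Set (Place (IsLocalRing.ResidueField A)
        ↥(rvFk (IsLocalRing.ResidueField A) N))) ∪ bad).Finite := T.finite_toSet.union hbad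
    obtain ⟨Q, hQ⟩ := hfin.exists_notMem
    rw [Set.mem_union, not_or] at hQ
    obtain ⟨P, hP, -⟩ := hcoord Q hQ.2
    refine ⟨P, ?_⟩
    rw [hP]
    exact fun hmem => hQ.1 (Finset.mem_coe.2 hmem)
  have hmk : ((m : ℕ) : IsLocalRing.ResidueField A) ≠ 0 :=
    natCast_residueField_ne_zero A hℓ.out hA hm
  obtain ⟨D, rfl⟩ := Pic0.mk_surjective z
  have hD0 : Divisor.degree (D : Divisor (AlgebraicClosure ℚ) ↥(modularFunctionFieldBar N)) = 0 :=
    D.2
  have hmD : m • (D : Divisor (AlgebraicClosure ℚ) ↥(modularFunctionFieldBar N)) ∈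
      Divisor.principal (K := AlgebraicClosure ℚ) (F := ↥(modularFunctionFieldBar N)) := by
    have h1 : (Pic0.mk (m • D) : JZero N) = 0 := hmz
    have h2 := (QuotientAddGroup.eq_zero_iff (m • D)).1 h1
    rw [AddSubgroup.mem_addSubgroupOf] at h2
    simpa using h2
  have hrD : Finsupp.mapDomain r (D : Divisor (AlgebraicClosure ℚ) ↥(modularFunctionFieldBar N)) ∈
      Divisor.principal (K := IsLocalRing.ResidueField A)
        (F := ↥(modularFunctionFieldFullC (IsLocalRing.ResidueField A) N)) := by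
    have h1 := reductionModL_mk h D
    rw [hz] at h1
    have h2 := (QuotientAddGroup.eq_zero_iff _).1 h1.symm
    rw [AddSubgroup.mem_addSubgroupOf] at h2
    exact h2
  have key := hLT (AlgebraicClosure ℚ) A (IsLocalRing.ResidueField A) (IsLocalRing.residue A) N r H
    RL.principal RL.deg_one T hRL hNS (fun Q hQ => hcoord Q (hTbad Q hQ)) hP0 m hmk
    (D : Divisor (AlgebraicClosure ℚ) ↥(modularFunctionFieldBar N)) hD0 hmD hrD
  refine (QuotientAddGroup.eq_zero_iff D).2 ?_
  rw [AddSubgroup.mem_addSubgroupOf]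
  exact key

end

end Fermat.Agent.H87.ESD
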