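import Mathlib
import Fermat.Agent.H87.ESD.CoreGlue
import Fermat.Agent.H18.RedCoord
import Fermat.Agent.H57.TorsionReduction
import Fermat.Agent.H27.ESD.Interfaces2

/-!
# P-ES / ES-D-CORE (row 304): `S18CoreStatement`, unconditionally

* `coordStatement` : coordinates on all residue discs (helper18's `RvHyp.exists_coord`);
* `reductionSetupOfRvHyp` : helper18's Gauss ring is a `ReductionSetup` of helper57;
* `leadingTermStatement` : helper57's abstract leading-term theorem in Gauss-ring language;
* `s18Core : S18CoreStatement`, `s18CoreFF : S18CoreFFStatement`.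
-/

set_option autoImplicit false
set_option synthInstance.maxHeartbeats 400000
set_option maxHeartbeats 1000000

open AlgebraicCurve ModularCurve Fermat.Agent.H18 Fermat.Agent.H27.ESD

namespace Fermat.Agent.H87.ESD

noncomputable section

/-- **CORE-a**: coordinates exist on every residue disc (empty exceptional set). -/
theorem coordStatement : CoordStatement := by
  intro N _ ℓ hℓ _ A hA r H gL gk RL Rk hg
  refine ⟨∅, Set.finite_empty, fun Q _ => ?_⟩
  have hsurj : Function.Surjective (IsLocalRing.residue A) := IsLocalRing.residue_surjective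
  obtain ⟨P, hP⟩ := H.r_surjective hsurj Q
  have hArch : RvArch A := rvArch_algebraicClosure A hℓ.out hA
  obtain ⟨t, ht⟩ := H.exists_coord hArch hsurj RL Rk hg Q P hP
  exact ⟨P, hP, t, ht⟩

section Adapter

variable {L : Type*} [Field L] [Algebra ℚ L] {A : ValuationSubring L}
variable {k : Type*} [Field k] {π : A →+* k} {N : ℕ}
variable {r : Place L ↥(rvFL L N) → Place k ↥(rvFk k N)}

/-- the Gauss ring as a valuation subring -/
def gaussValuationSubring (H : RvHyp A π N r) : ValuationSubring ↥(rvFL L N) :=
  { rvRing A π N with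
    mem_or_inv_mem' := H.mem_or_inv_mem }

theorem mem_gaussValuationSubring (H : RvHyp A π N r) (x : ↥(rvFL L N)) :
    x ∈ gaussValuationSubring H ↔ x ∈ rvRing A π N := Iff.rfl

/-- the identification of the Gauss valuation subring with helper18's Gauss ring -/
def gaussToRvRing (H : RvHyp A π N r) : gaussValuationSubring H →+* rvRing A π N :=
  (ValuationSubring.subtype (gaussValuationSubring H)).codRestrict (rvRing A π N) (fun x => x.2)

theorem coe_gaussToRvRing (H : RvHyp A π N r) (x : gaussValuationSubring H) :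
    ((gaussToRvRing H x : rvRing A π N) : ↥(rvFL L N)) = (x : ↥(rvFL L N)) := rfl

/-- the reduction map on the Gauss valuation subring -/
def gaussRed (H : RvHyp A π N r) : gaussValuationSubring H →+* ↥(rvFk k N) :=
  (rvRed A π N).comp (gaussToRvRing H)

theorem gaussRed_apply (H : RvHyp A π N r) (x : gaussValuationSubring H) :
    gaussRed H x = rvRed A π N (gaussToRvRing H x) := rfl

theorem gaussRed_mk (H : RvHyp A π N r) (x : ↥(rvFL L N)) (hx : x ∈ rvRing A π N) :
    gaussRed H (⟨x, hx⟩ : gaussValuationSubring H) = rvRed A π N ⟨x, hx⟩ := rfl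

theorem gaussRed_eq_zero_iff (H : RvHyp A π N r) (x : gaussValuationSubring H) :
    gaussRed H x = 0 ↔ ¬ IsUnit x := by
  constructor
  · intro h0 hu
    obtain ⟨y, hy⟩ := hu.exists_right_inv
    have h1 := congrArg (gaussRed H) hy
    rw [map_mul, h0, zero_mul, map_one] at h1
    exact zero_ne_one h1
  · intro hnu
    by_contra hne
    apply hnu
    have hinv : ((gaussToRvRing H x : rvRing A π N) : ↥(rvFL L N))⁻¹ ∈ rvRing A π N :=
      inv_mem_rvRing_of_red_ne_zero (f := gaussToRvRing H x) hne
    have hx0 : (x : ↥(rvFL L N)) ≠ 0 := by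
      intro h
      apply hne
      have : x = 0 := Subtype.ext h
      rw [this, map_zero]
    refine IsUnit.of_mul_eq_one (⟨(x : ↥(rvFL L N))⁻¹, hinv⟩ : gaussValuationSubring H) ?_
    exact Subtype.ext (mul_inv_cancel₀ hx0)

/-- **Adapter**: helper18's Gauss ring is a `ReductionSetup` in the sense of helper57. -/
def reductionSetupOfRvHyp (H : RvHyp A π N r) :
    Fermat.Agent.H57.ReductionSetup L k ↥(rvFL L N) ↥(rvFk k N) where
  O := gaussValuationSubring H
  red := gaussRed H
  red_eq_zero := gaussRed_eq_zero_iff H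
  exists_scale := by
    intro y hy
    obtain ⟨c, u, hc, hu, hyu⟩ := H.exists_normalize y hy
    refine ⟨c, hc, ?_⟩
    have hunit : IsUnit (⟨u.1, u.2⟩ : gaussValuationSubring H) := by
      by_contra hnu
      exact hu ((gaussRed_eq_zero_iff H ⟨u.1, u.2⟩).2 hnu)
    exact ⟨hunit.unit, hyu⟩
  red_const := by
    intro a ha
    by_cases haA : a ∈ A
    · refine ⟨π ⟨a, haA⟩, ?_⟩
      exact rvRed_algebraMap (A := A) (π := π) (N := N) (⟨a, haA⟩ : A)
    · exfalso
      have hinv : a⁻¹ ∈ A := (A.mem_or_inv_mem a).resolve_left haA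
      have ha0 : a ≠ 0 := fun h => haA (h ▸ A.zero_mem)
      have hnu : ¬ IsUnit (⟨a⁻¹, hinv⟩ : A) := by
        intro hu
        obtain ⟨b, hb⟩ := hu.exists_right_inv
        have hb' : a⁻¹ * (b : L) = 1 := by
          have := congrArg Subtype.val hb
          simpa using this
        have : (b : L) = a := by
          field_simp at hb'
          exact hb'
        exact haA (this ▸ b.2)
      have hπ : π ⟨a⁻¹, hinv⟩ = 0 := (H.hker _).2 hnu
      have h1 := rvRed_algebraMap (A := A) (π := π) (N := N) (⟨a⁻¹, hinv⟩ : A)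
      rw [hπ, map_zero] at h1
      have hmul : (⟨algebraMap L ↥(rvFL L N) a, ha⟩ : rvRing A π N) *
          ⟨algebraMap L ↥(rvFL L N) ((⟨a⁻¹, hinv⟩ : A) : L), rv_algebraMap_mem_rvRing _⟩ = 1 := by
        apply Subtype.ext
        show algebraMap L ↥(rvFL L N) a * algebraMap L ↥(rvFL L N) a⁻¹ = 1
        rw [← map_mul, mul_inv_cancel₀ ha0, map_one]
      have h2 := congrArg (rvRed A π N) hmul
      rw [map_mul, h1, mul_zero, map_one] at h2
      exact zero_ne_one h2
  r := r
  ord_red := by
    intro u D hD Q
    have hu : rvRed A π N (gaussToRvRing H (u : gaussValuationSubring H)) ≠ 0 := by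
      intro h0
      exact ((gaussRed_eq_zero_iff H (u : gaussValuationSubring H)).1 h0) u.isUnit
    exact H.mapDomain_eq (gaussToRvRing H (u : gaussValuationSubring H)) hu D hD Q

end Adapter

/-- **CORE-cd**: the abstract leading-term statement (helper57's theorem through the adapter). -/
theorem leadingTermStatement : LeadingTermStatement := by
  intro L _ _ A k _ π N r H _ hdeg T hRL hNS hcoord hP0 m hm D hD0 hmD hrD
  have hmF : ((m : ℕ) : ↥(rvFk k N)) ≠ 0 := by
    intro h0
    apply hm
    have : algebraMap k ↥(rvFk k N) (m : k) = 0 := by rw [map_natCast]; exact h0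
    exact (map_eq_zero _).1 this
  refine (reductionSetupOfRvHyp H).principal_of_torsion hdeg T hRL hNS ?_ hP0 m hmF D hD0 hmD hrD
  intro Q hQ
  obtain ⟨P, hP, t, ht1, ht2, ht3⟩ := hcoord Q hQ
  exact ⟨P, hP, (⟨t.1, t.2⟩ : gaussValuationSubring H), ht1, ht2, ht3⟩

/-- **ES-D-CORE (row 304)**: the wave-1 core statement. -/
theorem s18Core : S18CoreStatement :=
  s18Core_of coordStatement leadingTermStatement

/-- **ES-D-CORE (row 304)**: the official core statement (T2). -/
theorem s18CoreFF : S18CoreFFStatement :=
  s18CoreFF_of s18Core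

end

end Fermat.Agent.H87.ESD
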